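import Fermat.Agent.JacRep.Dict.Extend.Cover

/-!
# Gluing modules on two affine charts

`exists_glue`: invertible modules of sections on two covering affine charts, with spanning maps to
one on the overlap, glue to an invertible module with these sections and restriction maps.  The
glued module is the fibre product of the two pushforwards over the one from the overlap
(`bijective_fst_app`, `bijective_snd_app`).
-/

set_option autoImplicit false
set_option linter.style.haveILetI false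
set_option linter.unusedSectionVars false

noncomputable section

open CategoryTheory CategoryTheory.Limits AlgebraicGeometry Opposite

universe u

namespace FLTAgent.JacRep.Dict.Extend

variable {X : Scheme.{u}}

theorem preservesLimit_sections {F₀ F₁ G : X.Modules} (α₀ : F₀ ⟶ G) (α₁ : F₁ ⟶ G) (W : X.Opens) :
    PreservesLimit (cospan α₀ α₁) (Scheme.Modules.toPresheaf X ⋙
      (CategoryTheory.evaluation (TopologicalSpace.Opens X)ᵒᵖ Ab.{u}).obj (op W)) := by
  haveI h1 : PreservesLimit (cospan α₀ α₁) (Scheme.Modules.toPresheaf X) := inferInstance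
  haveI h2 : PreservesLimitsOfShape WalkingCospan
    ((CategoryTheory.evaluation (TopologicalSpace.Opens X)ᵒᵖ Ab.{u}).obj (op W)) := inferInstance
  exact comp_preservesLimit _ _

/-- The projection of a fibre product is bijective on sections where the other leg is. -/
theorem bijective_fst_app {F₀ F₁ G : X.Modules} (α₀ : F₀ ⟶ G) (α₁ : F₁ ⟶ G) (W : X.Opens)
    (h : Function.Bijective (α₁.app W)) :
    Function.Bijective ((pullback.fst α₀ α₁).app W) := by
  let G' : X.Modules ⥤ Ab.{u} :=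
    Scheme.Modules.toPresheaf X ⋙
      (CategoryTheory.evaluation (TopologicalSpace.Opens X)ᵒᵖ Ab.{u}).obj (op W)
  haveI := preservesLimit_sections α₀ α₁ W
  have hp := (IsPullback.of_hasPullback α₀ α₁).map G'
  haveI : IsIso (G'.map α₁) := (ConcreteCategory.isIso_iff_bijective _).mpr h
  exact (ConcreteCategory.isIso_iff_bijective _).mp hp.isIso_fst_of_isIso

theorem bijective_snd_app {F₀ F₁ G : X.Modules} (α₀ : F₀ ⟶ G) (α₁ : F₁ ⟶ G) (W : X.Opens)
    (h : Function.Bijective (α₀.app W)) :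
    Function.Bijective ((pullback.snd α₀ α₁).app W) := by
  let G' : X.Modules ⥤ Ab.{u} :=
    Scheme.Modules.toPresheaf X ⋙
      (CategoryTheory.evaluation (TopologicalSpace.Opens X)ᵒᵖ Ab.{u}).obj (op W)
  haveI := preservesLimit_sections α₀ α₁ W
  have hp := (IsPullback.of_hasPullback α₀ α₁).map G'
  haveI : IsIso (G'.map α₀) := (ConcreteCategory.isIso_iff_bijective _).mpr h
  exact (ConcreteCategory.isIso_iff_bijective _).mp hp.isIso_snd_of_isIso

theorem isIso_restrict {Y : Scheme.{u}} (q : Y ⟶ X) [IsOpenImmersion q] {M N : X.Modules}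
    (π : M ⟶ N) (h : ∀ Q : Y.Opens, Function.Bijective (π.app (q ''ᵁ Q))) :
    IsIso ((Scheme.Modules.restrictFunctor q).map π) :=
  Scheme.Modules.Hom.isIso_iff_isIso_app.mpr fun Q =>
    (ConcreteCategory.isIso_iff_bijective _).mpr (h Q)

variable {B₀ B₁ B : Type u} [CommRing B₀] [CommRing B₁] [CommRing B] {φ₀ : B₀ →+* B}
  {φ₁ : B₁ →+* B} (q₀ : Spec (CommRingCat.of B₀) ⟶ X) [IsOpenImmersion q₀]
  (q₁ : Spec (CommRingCat.of B₁) ⟶ X) [IsOpenImmersion q₁]
  (q : Spec (CommRingCat.of B) ⟶ X) [IsOpenImmersion q]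
  [IsOpenImmersion (Spec.map (CommRingCat.ofHom φ₀))]
  [IsOpenImmersion (Spec.map (CommRingCat.ofHom φ₁))]
  (h₀ : Spec.map (CommRingCat.ofHom φ₀) ≫ q₀ = q) (h₁ : Spec.map (CommRingCat.ofHom φ₁) ≫ q₁ = q)
  {P₀ P₁ P : Type u} [AddCommGroup P₀] [Module B₀ P₀] [Module.Invertible B₀ P₀]
  [AddCommGroup P₁] [Module B₁ P₁] [Module.Invertible B₁ P₁]
  [AddCommGroup P] [Module B P] [Module.Invertible B P]

/-- Modules on two charts agreeing on the overlap glue. -/
theorem exists_glue (hcover : Set.range q₀ ∪ Set.range q₁ = Set.univ)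
    (hinter : Set.range q₀ ∩ Set.range q₁ ⊆ Set.range q)
    (ι₀ : P₀ →ₛₗ[φ₀] P) (hι₀ : Submodule.span B (Set.range ι₀) = ⊤)
    (ι₁ : P₁ →ₛₗ[φ₁] P) (hι₁ : Submodule.span B (Set.range ι₁) = ⊤) :
    ∃ (N : X.Modules) (_ : Scheme.Modules.IsInvertible N)
      (a₀ : Sec (N.restrict q₀) ≃ₗ[B₀] P₀) (a₁ : Sec (N.restrict q₁) ≃ₗ[B₁] P₁)
      (a : Sec (N.restrict q) ≃ₗ[B] P),
      (∀ x, a (chartRes φ₀ q₀ q h₀ N x) = ι₀ (a₀ x)) ∧
        ∀ x, a (chartRes φ₁ q₁ q h₁ N x) = ι₁ (a₁ x) := by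
  obtain ⟨α₀, hα₀, hz₀⟩ := exists_toOverlap q₀ q h₀ ι₀ hι₀
  obtain ⟨α₁, hα₁, hz₁⟩ := exists_toOverlap q₁ q h₁ ι₁ hι₁
  let N := Limits.pullback α₀ α₁
  let π₀ : N ⟶ push q₀ P₀ := pullback.fst α₀ α₁
  let π₁ : N ⟶ push q₁ P₁ := pullback.snd α₀ α₁
  haveI hπ₀ : IsIso ((Scheme.Modules.restrictFunctor q₀).map π₀) := isIso_restrict q₀ π₀ fun Q =>
    bijective_fst_app α₀ α₁ _ (bijective_app q₁ q hα₁ (by
      rintro _ ⟨z, -, rfl⟩ hz
      exact hinter ⟨⟨z, rfl⟩, hz⟩))
  haveI hπ₁ : IsIso ((Scheme.Modules.restrictFunctor q₁).map π₁) := isIso_restrict q₁ π₁ fun Q =>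
    bijective_snd_app α₀ α₁ _ (bijective_app q₀ q hα₀ (by
      rintro _ ⟨z, -, rfl⟩ hz
      exact hinter ⟨hz, ⟨z, rfl⟩⟩))
  haveI hπ : IsIso ((Scheme.Modules.restrictFunctor q).map (π₀ ≫ α₀)) := by
    haveI : IsIso ((Scheme.Modules.restrictFunctor q).map π₀) := isIso_restrict q π₀ fun Q =>
      bijective_fst_app α₀ α₁ _ (bijective_app q₁ q hα₁ (by
        rintro _ ⟨z, -, rfl⟩ -
        exact ⟨z, rfl⟩))
    haveI := hα₀
    rw [Functor.map_comp]
    infer_instance
  let e₀ : N.restrict q₀ ≅ tildeSec (R := B₀) P₀ :=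
    asIso ((Scheme.Modules.restrictFunctor q₀).map π₀) ≪≫ counitIso q₀ P₀
  let e₁ : N.restrict q₁ ≅ tildeSec (R := B₁) P₁ :=
    asIso ((Scheme.Modules.restrictFunctor q₁).map π₁) ≪≫ counitIso q₁ P₁
  let e : N.restrict q ≅ tildeSec (R := B) P :=
    asIso ((Scheme.Modules.restrictFunctor q).map (π₀ ≫ α₀)) ≪≫ counitIso q P
  have hN : Scheme.Modules.IsInvertible N := invertible_of_cover fun x => by
    have hx : x ∈ Set.range q₀ ∪ Set.range q₁ := hcover ▸ Set.mem_univ x
    rcases hx with hx | hx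
    · exact ⟨_, q₀, inferInstance, hx, invertible_of_iso e₀.symm (invertible_tildeSec P₀)⟩
    · exact ⟨_, q₁, inferInstance, hx, invertible_of_iso e₁.symm (invertible_tildeSec P₁)⟩
  refine ⟨N, hN, (secIso e₀).trans (secTilde (R := B₀) P₀).symm,
    (secIso e₁).trans (secTilde (R := B₁) P₁).symm, (secIso e).trans (secTilde (R := B) P).symm,
    fun x => ?_, fun x => ?_⟩
  · show (secTilde (R := B) P).symm (secMap ((Scheme.Modules.restrictFunctor q).map (π₀ ≫ α₀) ≫
      (counitIso q P).hom) (chartRes φ₀ q₀ q h₀ N x)) = _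
    rw [Functor.map_comp, Category.assoc, secMap_comp, LinearMap.comp_apply, secMap_chartRes,
      hz₀, LinearEquiv.symm_apply_apply]
    rfl
  · show (secTilde (R := B) P).symm (secMap ((Scheme.Modules.restrictFunctor q).map (π₀ ≫ α₀) ≫
      (counitIso q P).hom) (chartRes φ₁ q₁ q h₁ N x)) = _
    rw [show π₀ ≫ α₀ = π₁ ≫ α₁ from pullback.condition, Functor.map_comp, Category.assoc,
      secMap_comp, LinearMap.comp_apply, secMap_chartRes, hz₁, LinearEquiv.symm_apply_apply]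
    rfl

end FLTAgent.JacRep.Dict.Extend
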