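import Fermat.Agent.JacRep.Dict.Square
import Fermat.Agent.JacRep.Ops.Semilin

/-!
# Pushforwards from affine charts

Tools for gluing on a scheme covered by two affine charts: invertibility is local
(`invertible_of_cover`), modules of sections restrict to localised modules (`exists_restrictIso`),
and a spanning semilinear map between chart and overlap modules induces a morphism of their
pushforwards which is bijective away from the part of the chart missing the overlap
(`exists_toOverlap`, `bijective_app`).
-/

set_option autoImplicit false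
set_option linter.style.haveILetI false
set_option linter.unusedSectionVars false

noncomputable section

open CategoryTheory CategoryTheory.Limits AlgebraicGeometry Opposite

universe u

namespace FLTAgent.JacRep.Dict.Extend

variable {X : Scheme.{u}}

/-- Invertibility is local. -/
theorem invertible_of_cover {N : X.Modules}
    (h : ∀ x : X, ∃ (Y : Scheme.{u}) (q : Y ⟶ X) (_ : IsOpenImmersion q),
      x ∈ Set.range q ∧ Scheme.Modules.IsInvertible (N.restrict q)) :
    Scheme.Modules.IsInvertible N := by
  refine ⟨fun x => ?_⟩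
  obtain ⟨Y, q, _, ⟨y, rfl⟩, hY⟩ := h x
  obtain ⟨U, hU, ⟨e⟩⟩ := hY.1 y
  have hr : Set.range (q ''ᵁ U).ι ⊆ Set.range (U.ι ≫ q) := by
    rw [Scheme.Opens.range_ι]
    rintro _ ⟨z, hz, rfl⟩
    exact ⟨⟨z, hz⟩, rfl⟩
  refine ⟨q ''ᵁ U, ⟨y, hU, rfl⟩, ⟨?_⟩⟩
  exact (Scheme.Modules.pullbackCongr (IsOpenImmersion.lift_fac (U.ι ≫ q) _ hr).symm).app N ≪≫
    ((Scheme.Modules.pullbackComp _ _).app N).symm ≪≫
    (Scheme.Modules.pullback _).mapIso (((Scheme.Modules.pullbackComp U.ι q).app N).symm ≪≫
      (Scheme.Modules.pullback U.ι).mapIso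
        ((Scheme.Modules.restrictFunctorIsoPullback q).app N).symm ≪≫ e) ≪≫
    Scheme.Modules.pullbackUnitIso _

variable {B B' : Type u} [CommRing B] [CommRing B'] {φ : B →+* B'}
  {P P' : Type u} [AddCommGroup P] [Module B P] [Module.Invertible B P]
  [AddCommGroup P'] [Module B' P'] [Module.Invertible B' P']

/-- Restriction of the module of sections `P` is the one of `P'`. -/
theorem exists_restrictIso [IsOpenImmersion (Spec.map (CommRingCat.ofHom φ))] (ι : P →ₛₗ[φ] P')
    (hι : Submodule.span B' (Set.range ι) = ⊤) :
    ∃ e : (tildeSec (R := B) P).restrict (Spec.map (CommRingCat.ofHom φ)) ≅ tildeSec (R := B') P',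
      ∀ p, secMap e.hom (resSec φ (tildeSec (R := B) P) (secTilde (R := B) P p)) =
        secTilde (R := B') P' (ι p) := by
  have hP := invertible_tildeSec (R := B) P
  haveI := qc_restrict φ (tildeSec (R := B) P) hP
  haveI := invertible_sec (invertible_restrict (Spec.map (CommRingCat.ofHom φ)) hP)
  haveI : Module.Invertible B' (Sec (tildeSec (R := B') P')) :=
    Module.Invertible.congr (secTilde (R := B') P')
  let f : P →ₛₗ[φ] Sec ((tildeSec (R := B) P).restrict (Spec.map (CommRingCat.ofHom φ))) :=
    (resSec φ (tildeSec (R := B) P)).comp (secTilde (R := B) P).toLinearMap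
  have hf : Submodule.span B' (Set.range f) = ⊤ := by
    rw [show Set.range f = Set.range (resSec φ (tildeSec (R := B) P)) from
      (secTilde (R := B) P).surjective.range_comp (resSec φ (tildeSec (R := B) P))]
    exact span_adjSec _ _
  let g : P →ₛₗ[φ] Sec (tildeSec (R := B') P') := (secTilde (R := B') P').toLinearMap.comp ι
  have hg : Submodule.span B' (Set.range g) = ⊤ := by
    rw [show Set.range g = secTilde (R := B') P' '' Set.range ι from
      Set.range_comp (secTilde (R := B') P') ι]
    exact span_image_equiv _ hι
  obtain ⟨e, he⟩ := Invert.exists_equiv f hf g hg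
  refine ⟨isoOfSec e, fun p => ?_⟩
  rw [secMap_isoOfSec]
  exact he p

variable (q : Spec (CommRingCat.of B) ⟶ X) [IsOpenImmersion q]

/-- The pushforward of the module of a chart. -/
abbrev push (P : Type u) [AddCommGroup P] [Module B P] : X.Modules :=
  (Scheme.Modules.pushforward q).obj (tildeSec (R := B) P)

/-- A pushforward restricts to the module. -/
def counitIso (P : Type u) [AddCommGroup P] [Module B P] :
    (push q P).restrict q ≅ tildeSec (R := B) P :=
  asIso ((Scheme.Modules.restrictAdjunction q).counit.app (tildeSec (R := B) P))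

variable [IsOpenImmersion (Spec.map (CommRingCat.ofHom φ))]
  (q' : Spec (CommRingCat.of B') ⟶ X) [IsOpenImmersion q']
  (h : Spec.map (CommRingCat.ofHom φ) ≫ q = q')

/-- The comparison map to the pushforward of the overlap. -/
theorem exists_toOverlap (ι : P →ₛₗ[φ] P') (hι : Submodule.span B' (Set.range ι) = ⊤) :
    ∃ α : push q P ⟶ push q' P',
      IsIso ((Scheme.Modules.restrictFunctor q').map α) ∧
      ∀ z, secMap ((Scheme.Modules.restrictFunctor q').map α ≫ (counitIso q' P').hom)
          (chartRes φ q q' h (push q P) z) =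
        secTilde (R := B') P' (ι ((secTilde (R := B) P).symm (secMap (counitIso q P).hom z))) := by
  obtain ⟨γ, hγ⟩ := exists_restrictIso ι hι
  let sp := Spec.map (CommRingCat.ofHom φ)
  let δ : (push q P).restrict q' ≅ tildeSec (R := B') P' :=
    (chartIso φ q q' h (push q P)).symm ≪≫
      (Scheme.Modules.restrictFunctor sp).mapIso (counitIso q P) ≪≫ γ
  let α : push q P ⟶ push q' P' :=
    (Scheme.Modules.restrictAdjunction q').homEquiv _ _ δ.hom
  have hα : (Scheme.Modules.restrictFunctor q').map α ≫ (counitIso q' P').hom = δ.hom :=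
    ((Scheme.Modules.restrictAdjunction q').homEquiv_counit _ _ α).symm.trans
      (Equiv.symm_apply_apply _ _)
  refine ⟨α, ?_, fun z => ?_⟩
  · haveI : IsIso ((Scheme.Modules.restrictFunctor q').map α ≫ (counitIso q' P').hom) := by
      rw [hα]; infer_instance
    exact IsIso.of_isIso_comp_right _ (counitIso q' P').hom
  · rw [hα, ← hγ, LinearEquiv.apply_symm_apply]
    have h1 : secMap (chartIso φ q q' h (push q P)).inv (chartRes φ q q' h (push q P) z) =
        resSec φ ((push q P).restrict q) z := by
      show (secIso (chartIso φ q q' h (push q P))).symm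
        (secIso (chartIso φ q q' h (push q P)) (resSec φ ((push q P).restrict q) z)) = _
      rw [LinearEquiv.symm_apply_apply]
    show secMap γ.hom (secMap ((Scheme.Modules.restrictFunctor sp).map (counitIso q P).hom)
      (secMap (chartIso φ q q' h (push q P)).inv (chartRes φ q q' h (push q P) z))) = _
    rw [h1]
    exact congrArg (secMap γ.hom) (adjSec_natural _ (counitIso q P).hom z).symm

omit [IsOpenImmersion (Spec.map (CommRingCat.ofHom φ))] in
/-- Sections of a pushforward only see the range. -/
theorem bijective_res_push (P : Type u) [AddCommGroup P] [Module B P] {W V : X.Opens} (hV : V ≤ W)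
    (hWV : q ⁻¹ᵁ W ≤ q ⁻¹ᵁ V) : Function.Bijective (res (push q P) hV) := by
  let M := tildeSec (R := B) P
  have h1 : q ⁻¹ᵁ V ≤ q ⁻¹ᵁ W := q.preimage_mono hV
  exact Function.bijective_iff_has_inverse.mpr ⟨fun y => res M hWV y,
    fun x => (res_res M h1 hWV x).trans (res_refl M x),
    fun y => (res_res M hWV h1 y).trans (res_refl M y)⟩

/-- The comparison map is bijective outside the part of the chart missing the overlap. -/
theorem bijective_app {α : push q P ⟶ push q' P'}
    (hα : IsIso ((Scheme.Modules.restrictFunctor q').map α))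
    {W : X.Opens} (hW : ∀ x ∈ W, x ∈ Set.range q → x ∈ Set.range q') :
    Function.Bijective (α.app W) := by
  haveI := hα
  have hQ : ∀ Q, Function.Bijective (α.app (q' ''ᵁ Q)) := fun Q =>
    (ConcreteCategory.isIso_iff_bijective _).mp
      (inferInstanceAs (IsIso (((Scheme.Modules.restrictFunctor q').map α).app Q)))
  set V := W ⊓ q'.opensRange with hVdef
  have hV : q' ''ᵁ (q' ⁻¹ᵁ V) = V := by
    rw [Scheme.Hom.image_preimage_eq_opensRange_inf, hVdef, inf_comm W, ← inf_assoc, inf_idem]
  have hbV : Function.Bijective (α.app V) := hV ▸ hQ (q' ⁻¹ᵁ V)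
  have hle : V ≤ W := inf_le_left
  have hP : Function.Bijective (res (push q P) hle) :=
    bijective_res_push q P hle fun y hy => ⟨hy, hW _ hy ⟨y, rfl⟩⟩
  have hP' : Function.Bijective (res (push q' P') hle) :=
    bijective_res_push q' P' hle fun y hy => ⟨hy, ⟨y, rfl⟩⟩
  have hcomm : res (push q' P') hle ∘ α.app W = α.app V ∘ res (push q P) hle :=
    funext fun x => (app_res α hle x).symm
  have := hbV.comp hP
  rw [← hcomm] at this
  exact (Function.Bijective.of_comp_iff' hP' _).mp this

end FLTAgent.JacRep.Dict.Extend
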